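import Mathlib

/-! # G1-AN: `∑ m^k r^m` as an integral combination of the `(1 - r)^{-(j+1)}` -/

set_option autoImplicit false

namespace Fermat.Agent.G1.AN

theorem Binom_step (m j : ℕ) :
    (m : ℤ) * ((m + j).choose j : ℤ)
      = ((j : ℤ) + 1) * ((m + (j + 1)).choose (j + 1) : ℤ) - ((j : ℤ) + 1) * ((m + j).choose j : ℤ) := by
  have h := Nat.add_one_mul_choose_eq (m + j) j
  have h' : ((m : ℤ) + j + 1) * ((m + j).choose j : ℤ)
      = ((m + j + 1).choose (j + 1) : ℤ) * ((j : ℤ) + 1) := by exact_mod_cast h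
  have e : m + (j + 1) = m + j + 1 := by ring
  rw [e]
  linear_combination h'

theorem Binom_exists_aux (k : ℕ) : ∃ c : ℕ → ℤ, (∀ j, k < j → c j = 0) ∧ ∀ m : ℕ,
    (m : ℤ) ^ k = ∑ j ∈ Finset.range (k + 1), c j * ((m + j).choose j : ℤ) := by
  induction k with
  | zero =>
    refine ⟨fun j => if j = 0 then 1 else 0, ?_, ?_⟩
    · intro j hj
      simp [Nat.pos_iff_ne_zero.mp hj]
    · intro m
      simp
  | succ k ih =>
    obtain ⟨c, hc0, hc⟩ := ih
    refine ⟨fun j => (j : ℤ) * c (j - 1) - ((j : ℤ) + 1) * c j, ?_, ?_⟩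
    · intro j hj
      have h1 : c (j - 1) = 0 := hc0 _ (by omega)
      have h2 : c j = 0 := hc0 _ (by omega)
      simp [h1, h2]
    · intro m
      have e1 : ∑ j ∈ Finset.range (k + 1 + 1), ((j : ℤ) * c (j - 1)) * ((m + j).choose j : ℤ)
          = ∑ j ∈ Finset.range (k + 1), c j * (((j : ℤ) + 1) * ((m + (j + 1)).choose (j + 1) : ℤ)) := by
        rw [Finset.sum_range_succ']
        simp only [Nat.cast_zero, zero_mul, add_zero]
        refine Finset.sum_congr rfl fun j _ => ?_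
        simp only [Nat.add_sub_cancel]
        push_cast
        ring
      have e2 : ∑ j ∈ Finset.range (k + 1 + 1), (((j : ℤ) + 1) * c j) * ((m + j).choose j : ℤ)
          = ∑ j ∈ Finset.range (k + 1), c j * (((j : ℤ) + 1) * ((m + j).choose j : ℤ)) := by
        rw [Finset.sum_range_succ, hc0 (k + 1) (by omega)]
        simp only [mul_zero, zero_mul, add_zero]
        refine Finset.sum_congr rfl fun j _ => ?_
        ring
      calc (m : ℤ) ^ (k + 1) = (m : ℤ) ^ k * m := pow_succ _ _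
        _ = ∑ j ∈ Finset.range (k + 1), c j * ((m : ℤ) * ((m + j).choose j : ℤ)) := by
            rw [hc m, Finset.sum_mul]
            refine Finset.sum_congr rfl fun j _ => ?_
            ring
        _ = ∑ j ∈ Finset.range (k + 1), c j * (((j : ℤ) + 1) * ((m + (j + 1)).choose (j + 1) : ℤ))
            - ∑ j ∈ Finset.range (k + 1), c j * (((j : ℤ) + 1) * ((m + j).choose j : ℤ)) := by
            rw [← Finset.sum_sub_distrib]
            refine Finset.sum_congr rfl fun j _ => ?_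
            rw [Binom_step]
            ring
        _ = _ := by
            rw [← e1, ← e2, ← Finset.sum_sub_distrib]
            refine Finset.sum_congr rfl fun j _ => ?_
            ring

theorem exists_binom_coeff (k : ℕ) : ∃ c : ℕ → ℤ, ∀ m : ℕ,
    (m : ℤ) ^ k = ∑ j ∈ Finset.range (k + 1), c j * ((m + j).choose j : ℤ) := by
  obtain ⟨c, -, hc⟩ := Binom_exists_aux k
  exact ⟨c, hc⟩

theorem hasSum_pow_mul_geom (k : ℕ) (c : ℕ → ℤ)
    (hc : ∀ m : ℕ, (m : ℤ) ^ k = ∑ j ∈ Finset.range (k + 1), c j * ((m + j).choose j : ℤ))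
    {r : ℂ} (hr : ‖r‖ < 1) :
    HasSum (fun m : ℕ => (m : ℂ) ^ k * r ^ m)
      (∑ j ∈ Finset.range (k + 1), (c j : ℂ) * ((1 - r) ^ (j + 1))⁻¹) := by
  have h1 : HasSum (fun m : ℕ => ∑ j ∈ Finset.range (k + 1),
      (c j : ℂ) * (((m + j).choose j : ℂ) * r ^ m))
      (∑ j ∈ Finset.range (k + 1), (c j : ℂ) * ((1 - r) ^ (j + 1))⁻¹) := by
    refine hasSum_sum fun j _ => ?_
    have := (hasSum_choose_mul_geometric_of_norm_lt_one j hr).mul_left (c j : ℂ)
    rwa [one_div] at this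
  convert h1 using 2 with m
  have h2 : ((m : ℂ)) ^ k = ∑ j ∈ Finset.range (k + 1), (c j : ℂ) * ((m + j).choose j : ℂ) := by
    exact_mod_cast congrArg (Int.cast : ℤ → ℂ) (hc m)
  rw [h2, Finset.sum_mul]
  refine Finset.sum_congr rfl fun j _ => ?_
  ring

theorem Binom_telescope (ζ : ℂ) (n : ℕ) :
    (ζ - 1) * ∑ i ∈ Finset.range n, (i : ℂ) * ζ ^ i
      = (n : ℂ) * ζ ^ n - ζ * ∑ i ∈ Finset.range n, ζ ^ i := by
  induction n with
  | zero => simp
  | succ n ih =>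
    rw [Finset.sum_range_succ, Finset.sum_range_succ, mul_add, ih]
    push_cast
    ring

/-- `(1 - ζ)⁻¹ = -(1/M) ∑_{i < M} i ζ^i`. -/
theorem inv_one_sub_mem (M : ℕ) [NeZero M] (O : Subring ℂ) (h1 : ((M : ℂ))⁻¹ ∈ O)
    (h2 : ∀ ζ : ℂ, ζ ^ M = 1 → ζ ∈ O) (ζ : ℂ) (hζ : ζ ^ M = 1) (hζ1 : ζ ≠ 1) :
    (1 - ζ)⁻¹ ∈ O := by
  have hM : (M : ℂ) ≠ 0 := Nat.cast_ne_zero.mpr (NeZero.ne M)
  have hg : ∑ i ∈ Finset.range M, ζ ^ i = 0 := by
    have := mul_geom_sum ζ M
    rw [hζ, sub_self] at this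
    rcases mul_eq_zero.mp this with h | h
    · exact absurd (sub_eq_zero.mp h) hζ1
    · exact h
  have ht := Binom_telescope ζ M
  rw [hg, hζ, mul_zero, sub_zero, mul_one] at ht
  have h1ζ : (1 - ζ) ≠ 0 := sub_ne_zero.mpr (Ne.symm hζ1)
  have key : (1 - ζ)⁻¹ = -((M : ℂ)⁻¹ * ∑ i ∈ Finset.range M, (i : ℂ) * ζ ^ i) := by
    refine inv_eq_of_mul_eq_one_right ?_
    have : (1 - ζ) * -((M : ℂ)⁻¹ * ∑ i ∈ Finset.range M, (i : ℂ) * ζ ^ i)
        = (M : ℂ)⁻¹ * ((ζ - 1) * ∑ i ∈ Finset.range M, (i : ℂ) * ζ ^ i) := by ring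
    rw [this, ht, inv_mul_cancel₀ hM]
  rw [key]
  refine O.neg_mem (O.mul_mem h1 (O.sum_mem fun i _ => O.mul_mem (natCast_mem O i) ?_))
  exact O.pow_mem (h2 ζ hζ) i

end Fermat.Agent.G1.AN
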