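import Fermat.Agent.G1.AN.Row

/-! # G1-AN: one row with a periodic weight -/

set_option autoImplicit false

open UpperHalfPlane CongruenceSubgroup EisensteinSeries Complex
open scoped MatrixGroups Manifold Real ModularForm

namespace Fermat.Agent.G1.AN

open Fermat.Agent.G1.A Fermat.Agent.GR.A

theorem IsPer.neg {M : ℕ} {w : (Fin 2 → ℤ) → ℂ} (h : IsPer M w) : IsPer M (fun v => w (-v)) := by
  intro v u
  have e : -(v + (M : ℤ) • u) = -v + (M : ℤ) • (-u) := by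
    rw [smul_neg, neg_add]
  show w (-(v + (M : ℤ) • u)) = w (-v)
  rw [e, h]

theorem norm_hatW_le (M : ℕ) (w : (Fin 2 → ℤ) → ℂ) (hw : ∀ v, ‖w v‖ ≤ 1) (c : ℤ) (r : ℕ) :
    ‖hatW M w c r‖ ≤ M := by
  unfold hatW
  refine (norm_sum_le _ _).trans ?_
  have h1 : ∀ β ∈ Finset.range M, ‖w ![c, (β : ℤ)] * zt M ^ (β * r)‖ ≤ 1 := by
    intro β _
    rw [norm_mul, norm_pow, norm_zt, one_pow, mul_one]
    exact hw _
  refine (Finset.sum_le_sum h1).trans ?_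
  simp

/-- splitting a sum over `ℤ` into residue classes. -/
theorem tsum_int_eq_sum_range (M : ℕ) [NeZero M] (f : ℤ → ℂ) (hf : Summable f) :
    ∑' d : ℤ, f d = ∑ β ∈ Finset.range M, ∑' k : ℤ, f ((β : ℤ) + (M : ℤ) * k) := by
  let e : Fin M × ℤ ≃ ℤ := (Equiv.prodComm _ _).trans (Int.divModEquiv M).symm
  have he : ∀ p : Fin M × ℤ, e p = ((p.1 : ℕ) : ℤ) + (M : ℤ) * p.2 := by
    intro p
    show p.2 * (M : ℤ) + ((p.1 : ℕ) : ℤ) = _
    ring
  have hs : Summable (fun p : Fin M × ℤ => f (e p)) := e.summable_iff.mpr hf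
  rw [← e.tsum_eq f, hs.tsum_prod, tsum_fintype,
    ← Fin.sum_univ_eq_sum_range (fun β : ℕ => ∑' k : ℤ, f ((β : ℤ) + (M : ℤ) * k)) M]
  refine Finset.sum_congr rfl (fun β _ => tsum_congr (fun k => ?_))
  rw [he]

/-- summability of the `r`-series. -/
theorem RowSum_summable (M : ℕ) [NeZero M] (c : ℕ+) (β : ℕ) (z : ℍ) :
    Summable fun r : ℕ+ => ((r : ℕ) : ℂ) ^ 11 *
      (zt M ^ (β * r) * S28.tParam M z ^ (c * r : ℕ)) := by
  have hu : ‖zt M ^ β * S28.tParam M z ^ (c : ℕ)‖ < 1 := by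
    rw [norm_mul, norm_pow, norm_pow, norm_zt, one_pow, one_mul]
    exact pow_lt_one₀ (norm_nonneg _) (norm_tParam_lt_one M z) c.ne_zero
  have h1 := summable_pow_mul_geometric_of_norm_lt_one 11 hu
  have h2 := h1.comp_injective PNat.coe_injective
  refine h2.congr (fun r => ?_)
  simp only [Function.comp_apply]
  rw [mul_pow, ← pow_mul, ← pow_mul]

theorem tsum_row_weight (M : ℕ) [NeZero M] (w : (Fin 2 → ℤ) → ℂ) (hw : ∀ v, ‖w v‖ ≤ 1)
    (hper : IsPer M w) (c : ℕ+) (z : ℍ) :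
    ∑' d : ℤ, w ![(c : ℤ), d] * eisSummand 12 ![(c : ℤ), d] z
      = eisC * ((M : ℂ)⁻¹) ^ 12 * ∑' r : ℕ+, hatW M w (c : ℤ) r *
          (((r : ℕ) : ℂ) ^ 11 * S28.tParam M z ^ (c * r : ℕ)) := by
  have hs : Summable fun v : Fin 2 → ℤ => w v * eisSummand 12 v z :=
    GR.A.summable_wEis (by norm_num) hw z
  have hs' : Summable fun x : ℤ × ℤ => w ![x.1, x.2] * eisSummand 12 ![x.1, x.2] z :=
    (finTwoArrowEquiv ℤ).symm.summable_iff.mpr hs
  have hrow : Summable fun d : ℤ => w ![(c : ℤ), d] * eisSummand 12 ![(c : ℤ), d] z :=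
    hs'.prod_factor (c : ℤ)
  rw [tsum_int_eq_sum_range M _ hrow]
  have hwper : ∀ (β : ℕ) (k : ℤ), w ![(c : ℤ), (β : ℤ) + (M : ℤ) * k] = w ![(c : ℤ), (β : ℤ)] := by
    intro β k
    have e : ![(c : ℤ), (β : ℤ) + (M : ℤ) * k] = ![(c : ℤ), (β : ℤ)] + (M : ℤ) • ![0, k] := by
      ext i
      fin_cases i <;> simp
    rw [e, hper]
  have h1 : ∀ β : ℕ, ∑' k : ℤ, w ![(c : ℤ), (β : ℤ) + (M : ℤ) * k] *
      eisSummand 12 ![(c : ℤ), (β : ℤ) + (M : ℤ) * k] z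
      = eisC * ((M : ℂ)⁻¹) ^ 12 * ∑' r : ℕ+, w ![(c : ℤ), (β : ℤ)] * (((r : ℕ) : ℂ) ^ 11 *
          (zt M ^ (β * r) * S28.tParam M z ^ (c * r : ℕ))) := by
    intro β
    simp only [hwper]
    rw [tsum_mul_left, tsum_row, tsum_mul_left]
    ring
  simp only [h1]
  rw [← Finset.mul_sum]
  congr 1
  rw [← Summable.tsum_finsetSum (fun β _ => (RowSum_summable M c β z).mul_left _)]
  refine tsum_congr (fun r => ?_)
  unfold hatW
  rw [Finset.sum_mul]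
  refine Finset.sum_congr rfl (fun β _ => ?_)
  ring

theorem tsum_row_weight_neg (M : ℕ) [NeZero M] (w : (Fin 2 → ℤ) → ℂ) (hw : ∀ v, ‖w v‖ ≤ 1)
    (hper : IsPer M w) (c : ℕ+) (z : ℍ) :
    ∑' d : ℤ, w ![-(c : ℤ), d] * eisSummand 12 ![-(c : ℤ), d] z
      = eisC * ((M : ℂ)⁻¹) ^ 12 * ∑' r : ℕ+, hatW M (fun v => w (-v)) (c : ℤ) r *
          (((r : ℕ) : ℂ) ^ 11 * S28.tParam M z ^ (c * r : ℕ)) := by
  rw [← tsum_row_weight M (fun v => w (-v)) (fun v => hw _) hper.neg c z,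
    ← (Equiv.neg ℤ).tsum_eq]
  refine tsum_congr (fun d => ?_)
  have e1 : -![(c : ℤ), d] = ![-(c : ℤ), -d] := by
    ext i
    fin_cases i <;> simp
  have e2 : eisSummand 12 ![-(c : ℤ), -d] z = eisSummand 12 ![(c : ℤ), d] z := by
    simp only [eisSummand, Matrix.cons_val_zero, Matrix.cons_val_one]
    have : ((-(c : ℤ) : ℤ) : ℂ) * (z : ℂ) + ((-d : ℤ) : ℂ) = -((((c : ℤ) : ℤ) : ℂ) * z + d) := by
      push_cast; ring
    rw [this]
    exact (Even.neg_zpow (by decide) _)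
  simp only [Equiv.neg_apply]
  rw [e1, e2]

end Fermat.Agent.G1.AN
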