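import Fermat.Agent.G1.AN.Limit
import Fermat.Agent.G1.AN.RowSum

/-! # G1-AN: integrality of the coefficients -/

set_option autoImplicit false

open UpperHalfPlane CongruenceSubgroup EisensteinSeries Complex
open scoped MatrixGroups Manifold Real ModularForm

namespace Fermat.Agent.G1.AN

open Fermat.Agent.G1.A Fermat.Agent.GR.A

theorem Const_zt_mem (M : ℕ) [NeZero M] (O : Subring ℂ) (h2 : ∀ ζ : ℂ, ζ ^ M = 1 → ζ ∈ O) :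
    zt M ∈ O := h2 _ (zt_pow M)

theorem Const_hatW_mem (M : ℕ) [NeZero M] (w : (Fin 2 → ℤ) → ℂ) (O : Subring ℂ)
    (h2 : ∀ ζ : ℂ, ζ ^ M = 1 → ζ ∈ O) (hwO : ∀ v, w v ∈ O) (c : ℤ) (r : ℕ) :
    hatW M w c r ∈ O :=
  Subring.sum_mem O fun _ _ => O.mul_mem (hwO _) (O.pow_mem (Const_zt_mem M O h2) _)

theorem Const_summable (w : (Fin 2 → ℤ) → ℂ) (hw : ∀ v, ‖w v‖ ≤ 1) :
    Summable fun d : ℤ => w ![0, d] * (((d : ℂ)) ^ 12)⁻¹ := by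
  refine Summable.of_norm_bounded (g := fun d : ℤ => 1 / (d : ℝ) ^ 12)
    (Real.summable_one_div_int_pow.2 (by norm_num)) fun d => ?_
  rw [norm_mul, norm_inv, norm_pow, Complex.norm_intCast, Even.pow_abs (by decide), one_div]
  have h0 : 0 ≤ ((d : ℝ) ^ 12)⁻¹ := inv_nonneg.2 (Even.pow_nonneg (by decide) _)
  calc ‖w ![0, d]‖ * ((d : ℝ) ^ 12)⁻¹ ≤ 1 * ((d : ℝ) ^ 12)⁻¹ :=
        mul_le_mul_of_nonneg_right (hw _) h0
    _ = ((d : ℝ) ^ 12)⁻¹ := one_mul _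

theorem Const_not_int (M : ℕ) {β : ℕ} (h0 : 0 < β) (h1 : β < M) (n : ℤ) :
    ((β : ℝ) / (M : ℝ)) ≠ n := by
  intro h
  have hM : (0 : ℝ) < M := by exact_mod_cast lt_trans h0 h1
  rw [div_eq_iff hM.ne'] at h
  have h' : (β : ℤ) = n * M := by exact_mod_cast h
  have hβ0 : (0 : ℤ) < β := by exact_mod_cast h0
  have hβ1 : (β : ℤ) < M := by exact_mod_cast h1
  have hM' : (0 : ℤ) < M := lt_trans hβ0 hβ1
  have hn0 : 0 < n := by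
    by_contra hn
    have : n * M ≤ 0 := mul_nonpos_of_nonpos_of_nonneg (not_lt.1 hn) hM'.le
    omega
  have : (M : ℤ) ≤ n * M := by nlinarith
  omega

theorem Const_exp_eq (M : ℕ) (β : ℕ) :
    cexp (2 * π * Complex.I * (((β : ℝ) / (M : ℝ) : ℝ) : ℂ)) = zt M ^ β := by
  rw [zt, ← Complex.exp_nat_mul]
  congr 1
  push_cast
  ring

theorem Const_class (M : ℕ) [NeZero M] (O : Subring ℂ) (h1 : ((M : ℂ))⁻¹ ∈ O)
    (h2 : ∀ ζ : ℂ, ζ ^ M = 1 → ζ ∈ O) {β : ℕ} (hβ0 : 0 < β) (hβ1 : β < M) :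
    eisC⁻¹ * ∑' k : ℤ, (((((β : ℤ) + (M : ℤ) * k : ℤ) : ℂ)) ^ 12)⁻¹ ∈ O := by
  obtain ⟨c, hc⟩ := exists_binom_coeff 11
  have hM : (M : ℂ) ≠ 0 := Nat.cast_ne_zero.2 (NeZero.ne M)
  have e1 : ∀ k : ℤ, (((((β : ℤ) + (M : ℤ) * k : ℤ) : ℂ)) ^ 12)⁻¹ =
      ((M : ℂ)⁻¹) ^ 12 * ((((((β : ℝ) / (M : ℝ) : ℝ) : ℂ)) + k) ^ 12)⁻¹ := by
    intro k
    rw [← inv_pow, ← inv_pow, ← mul_pow, ← mul_inv]
    congr 2
    push_cast
    field_simp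
  have hx := Const_not_int M hβ0 hβ1
  rw [tsum_congr e1, tsum_mul_left, tsum_real_eq c hc _ hx, Const_exp_eq]
  have hζM : (zt M ^ β) ^ M = 1 := by rw [← pow_mul, mul_comm, pow_mul, zt_pow, one_pow]
  have hζ1 : zt M ^ β ≠ 1 := by
    rw [← Const_exp_eq]
    intro h
    obtain ⟨n, hn⟩ := Complex.exp_eq_one_iff.1 h
    apply hx n
    have h2πi : (2 * π * Complex.I : ℂ) ≠ 0 := Complex.two_pi_I_ne_zero
    have : ((((β : ℝ) / (M : ℝ) : ℝ) : ℂ)) = (n : ℂ) := by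
      apply mul_left_cancel₀ h2πi
      rw [hn]
      ring
    exact_mod_cast this
  have hinv := inv_one_sub_mem M O h1 h2 _ hζM hζ1
  have e2 : eisC⁻¹ * (((M : ℂ)⁻¹) ^ 12 * (eisC * ∑ j ∈ Finset.range 12,
      (c j : ℂ) * ((1 - zt M ^ β) ^ (j + 1))⁻¹)) =
      ((M : ℂ)⁻¹) ^ 12 * ∑ j ∈ Finset.range 12, (c j : ℂ) * ((1 - zt M ^ β) ^ (j + 1))⁻¹ := by
    have := eisC_ne_zero
    field_simp
  rw [e2]
  refine O.mul_mem (O.pow_mem h1 _) (Subring.sum_mem O fun j _ => O.mul_mem (intCast_mem O _) ?_)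
  rw [← inv_pow]
  exact O.pow_mem hinv _

theorem constW_mem (M : ℕ) [NeZero M] (w : (Fin 2 → ℤ) → ℂ) (hw : ∀ v, ‖w v‖ ≤ 1)
    (hper : IsPer M w) (O : Subring ℂ) (h1 : ((M : ℂ))⁻¹ ∈ O) (h2 : ∀ ζ : ℂ, ζ ^ M = 1 → ζ ∈ O)
    (hwO : ∀ v, w v ∈ O) (hw0 : ∀ d : ℤ, (M : ℤ) ∣ d → w ![0, d] = 0) : constW w ∈ O := by
  rw [constW, tsum_int_eq_sum_range M _ (Const_summable w hw), Finset.mul_sum]
  refine Subring.sum_mem O fun β hβ => ?_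
  have hβ1 : β < M := Finset.mem_range.1 hβ
  have e1 : ∀ k : ℤ, w ![0, (β : ℤ) + (M : ℤ) * k] = w ![0, (β : ℤ)] := by
    intro k
    rw [← hper ![0, (β : ℤ)] ![0, k]]
    congr 1
    ext i
    fin_cases i <;> simp
  rcases Nat.eq_zero_or_pos β with rfl | hβ0
  · have e2 : ∀ k : ℤ, w ![0, ((0 : ℕ) : ℤ) + (M : ℤ) * k] *
        (((((0 : ℕ) : ℤ) + (M : ℤ) * k : ℤ) : ℂ) ^ 12)⁻¹ = 0 := by
      intro k
      rw [e1 k, Nat.cast_zero, hw0 0 (dvd_zero _), zero_mul]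
    rw [tsum_congr e2, tsum_zero, mul_zero]
    exact O.zero_mem
  · have e2 : ∀ k : ℤ, w ![0, (β : ℤ) + (M : ℤ) * k] *
        ((((β : ℤ) + (M : ℤ) * k : ℤ) : ℂ) ^ 12)⁻¹ =
        w ![0, (β : ℤ)] * ((((β : ℤ) + (M : ℤ) * k : ℤ) : ℂ) ^ 12)⁻¹ := by
      intro k
      rw [e1 k]
    rw [tsum_congr e2, tsum_mul_left, mul_left_comm]
    exact O.mul_mem (hwO _) (Const_class M O h1 h2 hβ0 hβ1)

theorem coefW_mem (M : ℕ) [NeZero M] (w : (Fin 2 → ℤ) → ℂ) (O : Subring ℂ)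
    (h1 : ((M : ℂ))⁻¹ ∈ O) (h2 : ∀ ζ : ℂ, ζ ^ M = 1 → ζ ∈ O) (hwO : ∀ v, w v ∈ O) (n : ℕ) :
    coefW M w n ∈ O := by
  rw [coefW]
  refine O.mul_mem (O.pow_mem h1 _) (Subring.sum_mem O fun c _ => O.mul_mem (O.add_mem ?_ ?_)
    (O.pow_mem (natCast_mem O _) _))
  · exact Const_hatW_mem M w O h2 hwO _ _
  · exact Const_hatW_mem M _ O h2 (fun v => hwO _) _ _

end Fermat.Agent.G1.AN
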