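import Fermat.Agent.G1.A.Gen

/-!
# G1-AN: expansions in `t = q^{1/M}` of the weight 12 Eisenstein series with `M`-periodic weights

Definitions: `zt M = e^{2πi/M}`, `IsPer M w`, the finite Fourier transform `hatW`, the coefficients
`coefW`, `constW` and the power series `serW M w`.
-/

set_option autoImplicit false

open UpperHalfPlane CongruenceSubgroup EisensteinSeries Complex
open scoped MatrixGroups Manifold Real ModularForm

namespace Fermat.Agent.G1.AN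

open Fermat.Agent.G1.A Fermat.Agent.GR.A

/-- `ζ_M = e^{2πi/M}`. -/
noncomputable def zt (M : ℕ) : ℂ := cexp (2 * π * Complex.I / M)

/-- the weight `w` only depends on `v` modulo `M`. -/
def IsPer (M : ℕ) (w : (Fin 2 → ℤ) → ℂ) : Prop :=
  ∀ v u : Fin 2 → ℤ, w (v + (M : ℤ) • u) = w v

/-- `∑_{β mod M} w(c, β) ζ_M^{β r}`. -/
noncomputable def hatW (M : ℕ) (w : (Fin 2 → ℤ) → ℂ) (c : ℤ) (r : ℕ) : ℂ :=
  ∑ β ∈ Finset.range M, w ![c, (β : ℤ)] * zt M ^ (β * r)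

/-- the coefficient of `t^n`, `n ≥ 1`. -/
noncomputable def coefW (M : ℕ) (w : (Fin 2 → ℤ) → ℂ) (n : ℕ) : ℂ :=
  ((M : ℂ)⁻¹) ^ 12 * ∑ c ∈ n.divisors,
    (hatW M w (c : ℤ) (n / c) + hatW M (fun v => w (-v)) (c : ℤ) (n / c)) * ((n / c : ℕ) : ℂ) ^ 11

/-- the constant term. -/
noncomputable def constW (w : (Fin 2 → ℤ) → ℂ) : ℂ :=
  eisC⁻¹ * ∑' d : ℤ, w ![0, d] * (((d : ℂ)) ^ 12)⁻¹

/-- the expansion of `eisC⁻¹ * wEis 12 w` in `t = q^{1/M}`. -/
noncomputable def serW (M : ℕ) (w : (Fin 2 → ℤ) → ℂ) : PowerSeries ℂ :=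
  PowerSeries.mk fun n => if n = 0 then constW w else coefW M w n

end Fermat.Agent.G1.AN
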