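import Fermat.Agent.G1.AN.Defs

/-! # G1-AN: regrouping the double sum over `(c, r)` by `n = c r`, and splitting `wEis` into rows -/

set_option autoImplicit false

open UpperHalfPlane CongruenceSubgroup EisensteinSeries Complex
open scoped MatrixGroups Manifold Real ModularForm

namespace Fermat.Agent.G1.AN

open Fermat.Agent.G1.A Fermat.Agent.GR.A

theorem regroup (W : ℕ → ℕ → ℂ) (B : ℝ) (hW : ∀ c r, ‖W c r‖ ≤ B) (k : ℕ) {q : ℂ} (hq : ‖q‖ < 1) :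
    HasSum (fun n : ℕ+ => (∑ c ∈ (n : ℕ).divisors, W c ((n : ℕ) / c) *
        (((n : ℕ) / c : ℕ) : ℂ) ^ k) * q ^ (n : ℕ))
      (∑' c : ℕ+, ∑' r : ℕ+, W c r * (((r : ℕ) : ℂ) ^ k * q ^ (c * r : ℕ))) := by
  set F : ℕ+ × ℕ+ → ℂ := fun x => W x.1 x.2 * (((x.2 : ℕ) : ℂ) ^ k * q ^ (x.1 * x.2 : ℕ)) with hFdef
  have hF : Summable F := by
    have h0 := (summable_prod_mul_pow (𝕜 := ℂ) k hq).norm.mul_left B
    refine Summable.of_norm_bounded h0 (fun x => ?_)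
    rw [hFdef, norm_mul]
    exact mul_le_mul_of_nonneg_right (hW _ _) (norm_nonneg _)
  have hT : ∑' x, F x =
      ∑' c : ℕ+, ∑' r : ℕ+, W c r * (((r : ℕ) : ℂ) ^ k * q ^ (c * r : ℕ)) := by
    rw [hF.tsum_prod]
  rw [← hT]
  have h1 : HasSum (F ∘ sigmaAntidiagonalEquivProd) (∑' x, F x) :=
    sigmaAntidiagonalEquivProd.hasSum_iff.mpr hF.hasSum
  refine h1.sigma (fun n => ?_)
  have h2 := hasSum_fintype (fun x : (n : ℕ).divisorsAntidiagonal =>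
    (F ∘ sigmaAntidiagonalEquivProd) ⟨n, x⟩)
  convert h2 using 1
  rw [Finset.univ_eq_attach]
  have h3 : ∀ x : (n : ℕ).divisorsAntidiagonal, (F ∘ sigmaAntidiagonalEquivProd) ⟨n, x⟩
      = (fun y : ℕ × ℕ => W y.1 y.2 * ((y.2 : ℂ) ^ k * q ^ (y.1 * y.2))) x.1 := by
    intro x
    simp [hFdef, sigmaAntidiagonalEquivProd, divisorsAntidiagonalFactors]
  simp_rw [h3]
  rw [(n : ℕ).divisorsAntidiagonal.sum_attach
    (fun y : ℕ × ℕ => W y.1 y.2 * ((y.2 : ℂ) ^ k * q ^ (y.1 * y.2))),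
    Nat.sum_divisorsAntidiagonal (fun x y => W x y * ((y : ℂ) ^ k * q ^ (x * y))), Finset.sum_mul]
  refine Finset.sum_congr rfl (fun c hc => ?_)
  rw [Nat.mul_div_cancel' (Nat.dvd_of_mem_divisors hc)]
  ring

theorem wEis_split (w : (Fin 2 → ℤ) → ℂ) (hw : ∀ v, ‖w v‖ ≤ 1) (z : ℍ) :
    wEis 12 w z = ∑' d : ℤ, w ![0, d] * (((d : ℂ)) ^ 12)⁻¹ +
      ∑' c : ℕ+, (∑' d : ℤ, w ![(c : ℤ), d] * eisSummand 12 ![(c : ℤ), d] z +
        ∑' d : ℤ, w ![-(c : ℤ), d] * eisSummand 12 ![-(c : ℤ), d] z) := by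
  have hs : Summable fun v : Fin 2 → ℤ => w v * eisSummand 12 v z :=
    summable_wEis (by norm_num) hw z
  have hs' : Summable fun x : ℤ × ℤ => w ![x.1, x.2] * eisSummand 12 ![x.1, x.2] z :=
    (finTwoArrowEquiv ℤ).symm.summable_iff.mpr hs
  have hs'' : Summable fun c : ℤ => ∑' d : ℤ, w ![c, d] * eisSummand 12 ![c, d] z := hs'.prod
  rw [wEis, ← (finTwoArrowEquiv ℤ).symm.tsum_eq]
  simp only [finTwoArrowEquiv_symm_apply]
  rw [hs'.tsum_prod, tsum_int_eq_zero_add_tsum_pnat hs'']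
  have hinj : Function.Injective (fun c : ℕ+ => ((c : ℕ) : ℤ)) :=
    Nat.cast_injective.comp PNat.coe_injective
  have hp : Summable fun c : ℕ+ => ∑' d : ℤ, w ![(c : ℤ), d] * eisSummand 12 ![(c : ℤ), d] z :=
    hs''.comp_injective hinj
  have hn : Summable fun c : ℕ+ =>
      ∑' d : ℤ, w ![-(c : ℤ), d] * eisSummand 12 ![-(c : ℤ), d] z :=
    hs''.comp_injective (neg_injective.comp hinj)
  rw [add_assoc, ← hp.tsum_add hn]
  have h0 : ∀ d : ℤ, eisSummand 12 ![0, d] z = (((d : ℂ)) ^ 12)⁻¹ := by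
    intro d
    simp only [eisSummand, Matrix.cons_val_zero, Matrix.cons_val_one, Int.cast_zero, zero_mul,
      zero_add]
    rw [zpow_neg]
    rfl
  simp only [h0]

end Fermat.Agent.G1.AN
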