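import Fermat.Agent.G1.AN.RowSum
import Fermat.Agent.G1.AN.Regroup

/-! # G1-AN: the expansion of `wEis 12 w` in `t = q^{1/M}` -/

set_option autoImplicit false

open UpperHalfPlane CongruenceSubgroup EisensteinSeries Complex
open scoped MatrixGroups Manifold Real ModularForm

namespace Fermat.Agent.G1.AN

open Fermat.Agent.G1.A Fermat.Agent.GR.A

theorem Exp_summable_row (M : ℕ) (w : (Fin 2 → ℤ) → ℂ) (hw : ∀ v, ‖w v‖ ≤ 1) (c : ℕ+) {q : ℂ}
    (hq : ‖q‖ < 1) :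
    Summable fun r : ℕ+ => hatW M w (c : ℤ) r * (((r : ℕ) : ℂ) ^ 11 * q ^ (c * r : ℕ)) := by
  have hqc : ‖q ^ (c : ℕ)‖ < 1 := by
    rw [norm_pow]
    exact pow_lt_one₀ (norm_nonneg _) hq c.ne_zero
  have h1 : Summable fun r : ℕ => ‖((r : ℂ)) ^ 11 * (q ^ (c : ℕ)) ^ r‖ :=
    (summable_pow_mul_geometric_of_norm_lt_one 11 hqc).norm
  have h2 : Summable fun r : ℕ+ => (M : ℝ) * ‖(((r : ℕ) : ℂ)) ^ 11 * (q ^ (c : ℕ)) ^ (r : ℕ)‖ :=
    (h1.comp_injective PNat.coe_injective).mul_left _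
  refine Summable.of_norm_bounded h2 (fun r => ?_)
  rw [norm_mul, pow_mul]
  exact mul_le_mul_of_nonneg_right (norm_hatW_le M w hw _ _) (norm_nonneg _)

theorem isExp_wEis (M : ℕ) [NeZero M] (w : (Fin 2 → ℤ) → ℂ) (hw : ∀ v, ‖w v‖ ≤ 1)
    (hper : IsPer M w) :
    S28.IsExp M (fun z => eisC⁻¹ * wEis 12 w z) (HahnSeries.ofPowerSeries ℤ ℂ (serW M w)) := by
  intro τ
  have hq1 : ‖S28.tParam M τ‖ < 1 := norm_tParam_lt_one M τ
  set q := S28.tParam M τ with hqdef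
  have hw' : ∀ v, ‖(fun v => w (-v)) v‖ ≤ 1 := fun v => hw (-v)
  set W : ℕ → ℕ → ℂ := fun c r => hatW M w (c : ℤ) r + hatW M (fun v => w (-v)) (c : ℤ) r with hWdef
  have hWB : ∀ c r, ‖W c r‖ ≤ 2 * (M : ℝ) := by
    intro c r
    refine (norm_add_le _ _).trans ?_
    have h1 := norm_hatW_le M w hw (c : ℤ) r
    have h2 := norm_hatW_le M (fun v => w (-v)) hw' (c : ℤ) r
    linarith
  have h1 := regroup W (2 * (M : ℝ)) hWB 11 hq1
  set T : ℂ := ∑' c : ℕ+, ∑' r : ℕ+, W c r * (((r : ℕ) : ℂ) ^ 11 * q ^ (c * r : ℕ)) with hT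
  have hval : eisC⁻¹ * wEis 12 w τ = constW w + ((M : ℂ)⁻¹) ^ 12 * T := by
    rw [wEis_split w hw τ, mul_add, constW]
    congr 1
    have hrow : ∀ c : ℕ+, (∑' d : ℤ, w ![(c : ℤ), d] * eisSummand 12 ![(c : ℤ), d] τ +
        ∑' d : ℤ, w ![-(c : ℤ), d] * eisSummand 12 ![-(c : ℤ), d] τ) =
        eisC * ((M : ℂ)⁻¹) ^ 12 * ∑' r : ℕ+, W c r * (((r : ℕ) : ℂ) ^ 11 * q ^ (c * r : ℕ)) := by
      intro c
      rw [tsum_row_weight M w hw hper c τ, tsum_row_weight_neg M w hw hper c τ, ← mul_add,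
        ← (Exp_summable_row M w hw c hq1).tsum_add (Exp_summable_row M _ hw' c hq1)]
      congr 1
      refine tsum_congr (fun r => ?_)
      rw [hWdef]
      simp only
      rw [add_mul]
    simp only [hrow]
    rw [tsum_mul_left, ← hT, mul_assoc, inv_mul_cancel_left₀ EisQ_eisC_ne_zero]
  simp only
  rw [hval]
  -- from `ℕ+` to `ℕ`
  have h2 : HasSum (fun n : ℕ => if n = 0 then 0 else coefW M w n * q ^ n)
      (((M : ℂ)⁻¹) ^ 12 * T) := by
    rw [← PNat.coe_injective.hasSum_iff]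
    · have hfun : ((fun n : ℕ => if n = 0 then 0 else coefW M w n * q ^ n) ∘
          (fun n : ℕ+ => (n : ℕ))) = fun n : ℕ+ => ((M : ℂ)⁻¹) ^ 12 *
          ((∑ c ∈ (n : ℕ).divisors, W c ((n : ℕ) / c) * (((n : ℕ) / c : ℕ) : ℂ) ^ 11) *
            q ^ (n : ℕ)) := by
        funext n
        simp only [Function.comp_apply, if_neg n.ne_zero, coefW, hWdef, mul_assoc]
      rw [hfun]
      exact h1.mul_left _
    · intro n hn
      have hn0 : n = 0 := by
        by_contra hne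
        exact hn ⟨⟨n, Nat.pos_of_ne_zero hne⟩, rfl⟩
      rw [if_pos hn0]
  have h3 : HasSum (fun n : ℕ => PowerSeries.coeff n (serW M w) * q ^ n)
      (constW w + ((M : ℂ)⁻¹) ^ 12 * T) := by
    have h0 : HasSum (fun n : ℕ => if n = 0 then constW w else 0) (constW w) :=
      hasSum_ite_eq 0 (constW w)
    refine (h0.add h2).congr_fun ?_ 
    intro n
    rw [serW, PowerSeries.coeff_mk]
    by_cases hn : n = 0
    · subst hn
      simp
    · simp [hn]
  -- from `ℕ` to `ℤ`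
  rw [← Nat.cast_injective.hasSum_iff]
  · have hfun : ((fun j : ℤ => (HahnSeries.ofPowerSeries ℤ ℂ (serW M w)).coeff j * q ^ j) ∘
        (Nat.cast : ℕ → ℤ)) = fun n : ℕ => PowerSeries.coeff n (serW M w) * q ^ n := by
      funext n
      simp [HahnSeries.ofPowerSeries_apply_coeff]
    rw [hfun]
    exact h3
  · intro j hj
    have hj' : j < 0 := by
      by_contra hcon
      exact hj ⟨j.toNat, Int.toNat_of_nonneg (not_lt.mp hcon)⟩
    rw [ModularCurve.ofPowerSeries_coeff_of_neg _ hj', zero_mul]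

end Fermat.Agent.G1.AN
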