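import Fermat.Agent.G1.AN.Defs
import Fermat.Agent.G1.AN.Binom

/-! # G1-AN: the Lipschitz formula on the real axis -/

set_option autoImplicit false

open UpperHalfPlane CongruenceSubgroup EisensteinSeries Complex
open scoped MatrixGroups Manifold Real ModularForm

namespace Fermat.Agent.G1.AN

open Fermat.Agent.G1.A Fermat.Agent.GR.A

section LimitAux
open Filter Topology

theorem Limit_aux (C : ℂ) (hC : C = (-2 * π * Complex.I) ^ 12 / (Nat.factorial 11 : ℂ)) (c : ℕ → ℤ)
    (hgeom : ∀ {r : ℂ}, ‖r‖ < 1 → HasSum (fun m : ℕ => (m : ℂ) ^ 11 * r ^ m)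
      (∑ j ∈ Finset.range (11 + 1), (c j : ℂ) * ((1 - r) ^ (j + 1))⁻¹))
    (x : ℝ) (hx : ∀ n : ℤ, x ≠ n) :
    ∑' k : ℤ, (((x : ℂ) + k) ^ 12)⁻¹
      = C * ∑ j ∈ Finset.range 12, (c j : ℂ) * ((1 - cexp (2 * π * Complex.I * x)) ^ (j + 1))⁻¹ := by
  have hne : ∀ k : ℤ, (x : ℂ) + k ≠ 0 := by
    intro k h
    apply hx (-k)
    have h' : ((x + k : ℝ) : ℂ) = 0 := by push_cast; exact h
    have h'' : x + k = 0 := by exact_mod_cast h'
    push_cast; linarith
  have h1 : Tendsto (fun y : ℝ => ∑' k : ℤ, (((x : ℂ) + y * Complex.I + k) ^ 12)⁻¹) (𝓝[>] 0)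
      (𝓝 (∑' k : ℤ, (((x : ℂ) + k) ^ 12)⁻¹)) := by
    apply tendsto_tsum_of_dominated_convergence (bound := fun k : ℤ => ‖(((x:ℂ) + k)^12)⁻¹‖)
    · have := (linear_right_summable (x : ℂ) 1 (k := 12) (by norm_num)).norm
      refine this.congr ?_
      intro k
      simp
    · intro k
      have hcont : ContinuousAt (fun y : ℝ => (((x : ℂ) + y * Complex.I + k) ^ 12)⁻¹) 0 := by
        apply ContinuousAt.inv₀
        · fun_prop
        · simpa using hne k
      have := hcont.tendsto
      simp only [ofReal_zero, zero_mul, add_zero] at this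
      exact this.mono_left nhdsWithin_le_nhds
    · refine Eventually.of_forall ?_
      intro y k
      rw [norm_inv, norm_inv, norm_pow, norm_pow]
      apply inv_anti₀
      · exact pow_pos (norm_pos_iff.mpr (hne k)) _
      · apply pow_le_pow_left₀ (norm_nonneg _)
        have e1 : ‖(x : ℂ) + k‖ = |x + k| := by
          rw [show (x : ℂ) + k = ((x + k : ℝ) : ℂ) by push_cast; ring, Complex.norm_real,
            Real.norm_eq_abs]
        rw [e1]
        have := Complex.abs_re_le_norm ((x : ℂ) + y * Complex.I + k)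
        simpa using this
  have h2 : ∀ y : ℝ, 0 < y → ∑' k : ℤ, (((x : ℂ) + y * Complex.I + k) ^ 12)⁻¹ =
      C * ∑ j ∈ Finset.range 12, (c j : ℂ) *
        ((1 - cexp (2 * π * Complex.I * ((x : ℂ) + y * Complex.I))) ^ (j + 1))⁻¹ := by
    intro y hy
    have H := qExpansion_identity (k := 11) (by norm_num) ⟨(x : ℂ) + y * Complex.I, by simpa using hy⟩
    have hr : ‖cexp (2 * π * Complex.I * ((x : ℂ) + y * Complex.I))‖ < 1 := by
      rw [Complex.norm_exp]
      have : (2 * π * Complex.I * ((x : ℂ) + y * Complex.I)).re = -(2 * π * y) := by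
        simp
      rw [this, Real.exp_lt_one_iff]
      have := Real.pi_pos
      nlinarith
    have G := (hgeom hr).tsum_eq
    simp only [one_div] at H
    rw [hC]
    rw [← G]
    exact H
  have h3 : Tendsto (fun y : ℝ => C * ∑ j ∈ Finset.range 12, (c j : ℂ) *
        ((1 - cexp (2 * π * Complex.I * ((x : ℂ) + y * Complex.I))) ^ (j + 1))⁻¹) (𝓝[>] 0)
      (𝓝 (C * ∑ j ∈ Finset.range 12, (c j : ℂ) *
        ((1 - cexp (2 * π * Complex.I * x)) ^ (j + 1))⁻¹)) := by
    have hne1 : 1 - cexp (2 * π * Complex.I * x) ≠ 0 := by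
      intro h
      have h' : cexp (2 * π * Complex.I * x) = 1 := by
        rw [sub_eq_zero] at h; exact h.symm
      rw [Complex.exp_eq_one_iff] at h'
      obtain ⟨n, hn⟩ := h'
      apply hx n
      have h2pi : (2 * π * Complex.I : ℂ) ≠ 0 := by
        simp [Real.pi_ne_zero]
      have : (x : ℂ) = n := by
        apply mul_left_cancel₀ h2pi
        rw [hn]; ring
      exact_mod_cast this
    have hcont : ContinuousAt (fun y : ℝ => C * ∑ j ∈ Finset.range 12, (c j : ℂ) *
        ((1 - cexp (2 * π * Complex.I * ((x : ℂ) + y * Complex.I))) ^ (j + 1))⁻¹) 0 := by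
      apply ContinuousAt.mul continuousAt_const
      apply tendsto_finsetSum
      intro j _
      apply ContinuousAt.mul continuousAt_const
      apply ContinuousAt.inv₀
      · fun_prop
      · simpa using hne1
    have := hcont.tendsto
    simp only [ofReal_zero, zero_mul, add_zero] at this
    exact this.mono_left nhdsWithin_le_nhds
  refine tendsto_nhds_unique h1 (h3.congr' ?_)
  filter_upwards [self_mem_nhdsWithin] with y hy
  exact (h2 y hy).symm

end LimitAux

theorem tsum_real_eq (c : ℕ → ℤ)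
    (hc : ∀ m : ℕ, (m : ℤ) ^ 11 = ∑ j ∈ Finset.range 12, c j * ((m + j).choose j : ℤ))
    (x : ℝ) (hx : ∀ n : ℤ, x ≠ n) :
    ∑' k : ℤ, (((x : ℂ) + k) ^ 12)⁻¹
      = eisC * ∑ j ∈ Finset.range 12, (c j : ℂ) * ((1 - cexp (2 * π * Complex.I * x)) ^ (j + 1))⁻¹ := by
  exact Limit_aux eisC rfl c (fun {r} hr => hasSum_pow_mul_geom 11 c hc hr) x hx

end Fermat.Agent.G1.AN
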