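import Fermat.Agent.G1.AN.Exp
import Fermat.Agent.G1.AN.Const

/-! # G1-AN: exports: expansions of the conjugates of the generators, with integrality -/

set_option autoImplicit false

open UpperHalfPlane CongruenceSubgroup EisensteinSeries Complex
open scoped MatrixGroups Manifold Real ModularForm

namespace Fermat.Agent.G1.AN

open Fermat.Agent.G1.A Fermat.Agent.GR.A

/-- the weight of `eisF M b ∣[12] γ`. -/
noncomputable def wSl (M : ℕ) (b : ℤ) (γ : SL(2, ℤ)) (v : Fin 2 → ℤ) : ℂ :=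
  eisW M b (Matrix.vecMul v ((γ⁻¹ : SL(2, ℤ)) : Matrix (Fin 2) (Fin 2) ℤ))

theorem eisF_slash_eq (M : ℕ) (b : ℤ) (γ : SL(2, ℤ)) :
    eisF M b ∣[(12 : ℤ)] γ = fun z => eisC⁻¹ * wEis 12 (wSl M b γ) z := by
  rw [eisF_eq_smul, ModularForm.SL_smul_slash, GR.A.wEis_slash]
  rfl

theorem norm_wSl_le (M : ℕ) (b : ℤ) (γ : SL(2, ℤ)) (v : Fin 2 → ℤ) : ‖wSl M b γ v‖ ≤ 1 :=
  norm_eisW_le M b _

theorem isPer_wSl (M : ℕ) (b : ℤ) (γ : SL(2, ℤ)) : IsPer M (wSl M b γ) := by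
  intro v u
  unfold wSl eisW
  rw [Matrix.add_vecMul, Matrix.smul_vecMul]
  have hiff : (M : ℤ) ∣ (Matrix.vecMul v ((γ⁻¹ : SL(2, ℤ)) : Matrix (Fin 2) (Fin 2) ℤ) +
      (M : ℤ) • Matrix.vecMul u ((γ⁻¹ : SL(2, ℤ)) : Matrix (Fin 2) (Fin 2) ℤ)) 0 - b ↔
      (M : ℤ) ∣ (Matrix.vecMul v ((γ⁻¹ : SL(2, ℤ)) : Matrix (Fin 2) (Fin 2) ℤ)) 0 - b := by
    rw [Pi.add_apply, Pi.smul_apply, smul_eq_mul, add_sub_right_comm]
    exact (Int.dvd_add_left (Dvd.intro _ rfl))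
  simp only [hiff]

theorem wSl_mem (M : ℕ) (b : ℤ) (γ : SL(2, ℤ)) (O : Subring ℂ) (v : Fin 2 → ℤ) :
    wSl M b γ v ∈ O := by
  unfold wSl eisW
  split_ifs
  · exact O.one_mem
  · exact O.zero_mem

theorem wSl_eq_zero (M : ℕ) (b : ℤ) (hb : ¬ (M : ℤ) ∣ b) (γ : SL(2, ℤ)) (d : ℤ)
    (hd : (M : ℤ) ∣ d) : wSl M b γ ![0, d] = 0 := by
  unfold wSl eisW
  rw [if_neg]
  intro h
  apply hb
  have h0 : (Matrix.vecMul ![0, d] ((γ⁻¹ : SL(2, ℤ)) : Matrix (Fin 2) (Fin 2) ℤ)) 0 =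
      d * (γ⁻¹ : SL(2, ℤ)) 1 0 := by
    simp [Matrix.vecMul, dotProduct, Fin.sum_univ_two]
  rw [h0] at h
  have h1 : (M : ℤ) ∣ d * (γ⁻¹ : SL(2, ℤ)) 1 0 := Dvd.dvd.mul_right hd _
  have h2 := dvd_sub h1 h
  rwa [sub_sub_cancel] at h2

/-- **(AN1), weight 12 form.** -/
theorem exists_isExp_eisF_slash_int (M : ℕ) [NeZero M] (b : ℤ) (hb : ¬ (M : ℤ) ∣ b)
    (γ : SL(2, ℤ)) :
    ∃ F : LaurentSeries ℂ, S28.IsExp M (eisF M b ∣[(12 : ℤ)] γ) F ∧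
      (∀ m : ℤ, m < 0 → F.coeff m = 0) ∧
      ∀ O : Subring ℂ, ((M : ℂ))⁻¹ ∈ O → (∀ ζ : ℂ, ζ ^ M = 1 → ζ ∈ O) →
        ∀ m : ℤ, F.coeff m ∈ O := by
  refine ⟨HahnSeries.ofPowerSeries ℤ ℂ (serW M (wSl M b γ)), ?_, ?_, ?_⟩
  · rw [eisF_slash_eq]
    exact isExp_wEis M (wSl M b γ) (norm_wSl_le M b γ) (isPer_wSl M b γ)
  · intro m hm
    exact ModularCurve.ofPowerSeries_coeff_of_neg _ hm
  · intro O h1 h2 m
    rcases lt_or_ge m 0 with hm | hm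
    · rw [ModularCurve.ofPowerSeries_coeff_of_neg _ hm]
      exact O.zero_mem
    · obtain ⟨n, rfl⟩ := Int.eq_ofNat_of_zero_le hm
      rw [HahnSeries.ofPowerSeries_apply_coeff, serW, PowerSeries.coeff_mk]
      split_ifs
      · exact constW_mem M _ (norm_wSl_le M b γ) (isPer_wSl M b γ) O h1 h2 (wSl_mem M b γ O)
          (wSl_eq_zero M b hb γ)
      · exact coefW_mem M _ O h1 h2 (wSl_mem M b γ O) n

/-- **(AN1)**: the conjugates of the generators have expansions with coefficients in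
`ℤ[1/M, ζ_M]`. -/
theorem exists_isExp_genF_smul_int (M : ℕ) [NeZero M] (b : ℤ) (hb : ¬ (M : ℤ) ∣ b) (d : ℕ)
    [NeZero d] (hd : d ∣ M) (γ : SL(2, ℤ)) :
    ∃ F : LaurentSeries ℂ, S28.IsExp M (fun τ => genF M b d (γ • τ)) F ∧
      ∀ O : Subring ℂ, ((M : ℂ))⁻¹ ∈ O → (∀ ζ : ℂ, ζ ^ M = 1 → ζ ∈ O) →
        ∀ m : ℤ, F.coeff m ∈ O := by
  obtain ⟨f, hf⟩ := S28.exists_goodU_factor M γ d (Nat.mem_divisors.mpr ⟨hd, NeZero.ne M⟩)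
  obtain ⟨F, hF, -, hFO⟩ := exists_isExp_eisF_slash_int M b hb γ
  have hΔ := S28.goodU_delta M
  refine ⟨F * (ModularCurve.qExpand ℂ M (S28.deltaL ℂ))⁻¹ * f⁻¹,
    ((hF.mul hΔ.expInv).mul hf.expInv).congr fun τ => ?_, fun O h1 h2 => ?_⟩
  · simp only [Pi.mul_apply, Pi.inv_apply]
    unfold genF
    rw [ModularForm.SL_slash_apply, zpow_neg, zpow_ofNat]
    have h3 := S28.DeltaF_smul γ τ
    have h1 : denom γ τ ≠ 0 := denom_ne_zero _ τ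
    have hD1 := S28.DeltaF_ne_zero τ
    have hD2 := S28.DeltaF_ne_zero (γ • τ)
    have hD4 := S28.DeltaF_ne_zero (S28.affH d 0 1 (γ • τ))
    rw [h3]
    field_simp
  · exact S28.coeff_mul_mem O (S28.coeff_mul_mem O (hFO O h1 h2) (hΔ.int O h1 h2).2)
      (hf.int O h1 h2).2

end Fermat.Agent.G1.AN
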