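import Fermat.Agent.G1.AN.Defs

/-! # G1-AN: one residue class of one row -/

set_option autoImplicit false

open UpperHalfPlane CongruenceSubgroup EisensteinSeries Complex
open scoped MatrixGroups Manifold Real ModularForm

namespace Fermat.Agent.G1.AN

open Fermat.Agent.G1.A Fermat.Agent.GR.A

/-- `∑_{d ≡ β (M)} (c z + d)^{-12} = C M^{-12} ∑_r r^{11} ζ^{β r} t^{c r}` (`c > 0`). -/
theorem tsum_row (M : ℕ) [NeZero M] (c : ℕ+) (β : ℕ) (z : ℍ) :
    ∑' k : ℤ, eisSummand 12 ![(c : ℤ), (β : ℤ) + (M : ℤ) * k] z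
      = eisC * ((M : ℂ)⁻¹) ^ 12 * ∑' r : ℕ+, ((r : ℕ) : ℂ) ^ 11 *
          (zt M ^ (β * r) * S28.tParam M z ^ (c * r : ℕ)) := by
  have hM : (M : ℂ) ≠ 0 := Nat.cast_ne_zero.mpr (NeZero.ne M)
  have hMpos : (0 : ℝ) < M := Nat.cast_pos.mpr (Nat.pos_of_ne_zero (NeZero.ne M))
  have hcpos : (0 : ℝ) < (c : ℕ) := Nat.cast_pos.mpr c.pos
  have him : 0 < ((((c : ℕ) : ℂ) * z + β) / M).im := by
    have e : ((((c : ℕ) : ℂ) * z + β) / M).im = (c : ℕ) * z.im / M := by
      have e1 : (((c : ℕ) : ℂ) * z + β) / M =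
          (((((c : ℕ) : ℝ) / M : ℝ) : ℂ)) * z + (((β : ℝ) / M : ℝ) : ℂ) := by
        push_cast
        field_simp
      rw [e1, Complex.add_im, Complex.ofReal_im, add_zero, Complex.im_ofReal_mul]
      rw [UpperHalfPlane.coe_im]
      ring
    rw [e]
    exact div_pos (mul_pos hcpos z.im_pos) hMpos
  have H := qExpansion_identity_pnat (k := 11) (by norm_num) ⟨(((c : ℕ) : ℂ) * z + β) / M, him⟩
  simp only [show 11 + 1 = 12 by norm_num] at H
  have e1 : ∀ k : ℤ, eisSummand 12 ![(c : ℤ), (β : ℤ) + (M : ℤ) * k] z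
      = ((M : ℂ)⁻¹) ^ 12 * (1 / ((((c : ℕ) : ℂ) * z + β) / M + k) ^ 12) := by
    intro k
    have e2 : ((c : ℕ) : ℂ) * z + ((β : ℂ) + (M : ℂ) * k) =
        (M : ℂ) * ((((c : ℕ) : ℂ) * z + β) / M + k) := by
      field_simp
      ring
    simp only [eisSummand, Matrix.cons_val_zero, Matrix.cons_val_one]
    push_cast
    rw [e2, mul_zpow]
    rw [show (-12 : ℤ) = -((12 : ℕ) : ℤ) by norm_num, zpow_neg, zpow_neg, zpow_natCast,
      zpow_natCast, inv_pow, one_div]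
  simp_rw [e1]
  rw [tsum_mul_left]
  have H' : ∑' k : ℤ, 1 / ((((c : ℕ) : ℂ) * z + β) / M + k) ^ 12 = eisC * ∑' r : ℕ+,
      ((r : ℕ) : ℂ) ^ 11 * (zt M ^ (β * r) * S28.tParam M z ^ (c * r : ℕ)) := by
    rw [eisC]
    refine H.trans ?_
    congr 1
    refine tsum_congr (fun r => ?_)
    congr 1
    rw [zt, S28.tParam, Function.Periodic.qParam, ← Complex.exp_nat_mul, ← Complex.exp_nat_mul,
      ← Complex.exp_nat_mul, ← Complex.exp_add]
    congr 1
    push_cast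
    field_simp
    ring
  rw [H']
  ring

theorem summable_row (M : ℕ) [NeZero M] (c : ℤ) (β : ℤ) (z : ℍ) :
    Summable fun k : ℤ => eisSummand 12 ![c, β + (M : ℤ) * k] z := by
  have hM : (M : ℤ) ≠ 0 := Nat.cast_ne_zero.mpr (NeZero.ne M)
  have hs : Summable fun v : Fin 2 → ℤ => (fun _ => (1 : ℂ)) v * eisSummand 12 v z :=
    GR.A.summable_wEis (by norm_num) (fun _ => by simp) z
  simp only [one_mul] at hs
  have hinj : Function.Injective (fun k : ℤ => (![c, β + (M : ℤ) * k] : Fin 2 → ℤ)) := by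
    intro k k' h
    have h1 := congrFun h 1
    simp only [Matrix.cons_val_one, Matrix.cons_val_fin_one] at h1
    exact mul_left_cancel₀ hM (add_left_cancel h1)
  exact hs.comp_injective hinj

theorem norm_zt (M : ℕ) : ‖zt M‖ = 1 := by
  have e : (2 * π * Complex.I / M : ℂ) = ((2 * π / M : ℝ) : ℂ) * Complex.I := by
    push_cast
    ring
  rw [zt, e, Complex.norm_exp_ofReal_mul_I]

theorem zt_pow (M : ℕ) [NeZero M] : zt M ^ M = 1 := by
  have hM : (M : ℂ) ≠ 0 := Nat.cast_ne_zero.mpr (NeZero.ne M)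
  rw [zt, ← Complex.exp_nat_mul, mul_div_cancel₀ _ hM, Complex.exp_two_pi_mul_I]

theorem norm_tParam_lt_one (M : ℕ) [NeZero M] (z : ℍ) : ‖S28.tParam M z‖ < 1 := by
  have hMpos : (0 : ℝ) < M := Nat.cast_pos.mpr (Nat.pos_of_ne_zero (NeZero.ne M))
  exact Function.Periodic.norm_qParam_lt_one hMpos z.im_pos

end Fermat.Agent.G1.AN
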